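import Fermat.Statements.S02

set_option autoImplicit false
open FreyPackage

namespace Fermat.Agent.S02

/-- Coprime case with `b` even. -/
theorem aux_even (a b c : ℤ) (ha : a ≠ 0) (hb : b ≠ 0) (hc : c ≠ 0) (p : ℕ) (pp : p.Prime)
    (hp5 : 5 ≤ p) (H : a ^ p + b ^ p = c ^ p) (hg : gcd a b = 1) (hb2 : (2 : ℤ) ∣ b) :
    Nonempty FreyPackage := by
  have hpodd : Odd p := pp.odd_of_ne_two (by omega)
  have hb2' : ((b : ℤ) : ZMod 2) = 0 := (ZMod.intCast_zmod_eq_zero_iff_dvd b 2).2 hb2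
  have ha_odd : ¬ (2 : ℤ) ∣ a := by
    intro h2a
    have h : (2 : ℤ) ∣ gcd a b := dvd_gcd h2a hb2
    rw [hg] at h
    omega
  have h4 : a % 4 = 3 ∨ a % 4 = 1 := by omega
  rcases h4 with h4 | h4
  · refine ⟨⟨a, b, c, ha, hb, hc, p, pp, hp5, H, hg, ?_, hb2'⟩⟩
    have : ((a : ℤ) : ZMod 4) = ((3 : ℤ) : ZMod 4) := by
      rw [ZMod.intCast_eq_intCast_iff_dvd_sub]
      push_cast
      omega
    simpa using this
  · refine ⟨⟨-a, -b, -c, neg_ne_zero.2 ha, neg_ne_zero.2 hb, neg_ne_zero.2 hc, p, pp, hp5,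
      ?_, ?_, ?_, ?_⟩⟩
    · rw [hpodd.neg_pow, hpodd.neg_pow, hpodd.neg_pow, ← H]; ring
    · rw [gcd_neg, neg_gcd]; exact hg
    · have : (((-a : ℤ)) : ZMod 4) = ((3 : ℤ) : ZMod 4) := by
        rw [ZMod.intCast_eq_intCast_iff_dvd_sub]
        push_cast
        omega
      simpa using this
    · push_cast
      rw [hb2', neg_zero]

/-- Coprime case. -/
theorem aux_coprime (a b c : ℤ) (ha : a ≠ 0) (hb : b ≠ 0) (hc : c ≠ 0) (p : ℕ) (pp : p.Prime)
    (hp5 : 5 ≤ p) (H : a ^ p + b ^ p = c ^ p) (hg : gcd a b = 1) :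
    Nonempty FreyPackage := by
  have hpodd : Odd p := pp.odd_of_ne_two (by omega)
  have hp0 : 0 < p := by omega
  by_cases hb2 : (2 : ℤ) ∣ b
  · exact aux_even a b c ha hb hc p pp hp5 H hg hb2
  by_cases ha2 : (2 : ℤ) ∣ a
  · exact aux_even b a c hb ha hc p pp hp5 (by rw [add_comm]; exact H)
      (by rw [gcd_comm]; exact hg) ha2
  · have hc2 : (2 : ℤ) ∣ c := by
      have ha' : Odd a := by
        rw [← Int.not_even_iff_odd, even_iff_two_dvd]; exact ha2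
      have hb' : Odd b := by
        rw [← Int.not_even_iff_odd, even_iff_two_dvd]; exact hb2
      have hsum : Even (a ^ p + b ^ p) := (ha'.pow).add_odd (hb'.pow)
      rw [H] at hsum
      have := (Int.even_pow.1 hsum).1
      exact even_iff_two_dvd.1 this
    refine aux_even a (-c) (-b) ha (neg_ne_zero.2 hc) (neg_ne_zero.2 hb) p pp hp5 ?_ ?_
      ((dvd_neg).2 hc2)
    · rw [hpodd.neg_pow, hpodd.neg_pow, ← H]; ring
    · rw [gcd_neg, ← gcdab_eq_gcdac hp0 H]; exact hg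

theorem result (a b c : ℤ) (ha : a ≠ 0) (hb : b ≠ 0) (hc : c ≠ 0) (p : ℕ) (pp : p.Prime) (hp5 : 5 ≤ p) (H : a ^ p + b ^ p = c ^ p) : Nonempty FreyPackage := by
  have hp0 : p ≠ 0 := by omega
  have hpos : 0 < Int.gcd a b := Int.gcd_pos_of_ne_zero_left b ha
  obtain ⟨a', b', hcop, ha', hb'⟩ := Int.exists_gcd_one hpos
  set d : ℤ := (Int.gcd a b : ℤ) with hd
  have hd0 : d ≠ 0 := by
    rw [hd]; exact_mod_cast hpos.ne'
  have hdc : d ∣ c := by
    rw [← Int.pow_dvd_pow_iff hp0, ← H]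
    apply dvd_add <;> rw [Int.pow_dvd_pow_iff hp0]
    · exact Dvd.intro_left _ ha'.symm
    · exact Dvd.intro_left _ hb'.symm
  obtain ⟨c', hc'⟩ := hdc
  have ha0 : a' ≠ 0 := by
    rintro rfl; apply ha; rw [ha']; ring
  have hb0 : b' ≠ 0 := by
    rintro rfl; apply hb; rw [hb']; ring
  have hc0 : c' ≠ 0 := by
    rintro rfl; apply hc; rw [hc']; ring
  have H' : a' ^ p + b' ^ p = c' ^ p := by
    have hdp : d ^ p ≠ 0 := pow_ne_zero _ hd0
    apply mul_right_cancel₀ hdp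
    calc (a' ^ p + b' ^ p) * d ^ p = (a' * d) ^ p + (b' * d) ^ p := by ring
      _ = a ^ p + b ^ p := by rw [← ha', ← hb']
      _ = c ^ p := H
      _ = (d * c') ^ p := by rw [← hc']
      _ = c' ^ p * d ^ p := by ring
  refine aux_coprime a' b' c' ha0 hb0 hc0 p pp hp5 H' ?_
  change ((Int.gcd a' b' : ℕ) : ℤ) = 1
  rw [hcop]; rfl

end Fermat.Agent.S02
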