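import Fermat.Statements.S07
import Fermat.Prelude.Thm_ModularForm_sturm_bound_Gamma0
import Fermat.Prelude.Thm_CongruenceSubgroup_one_mem_strictPeriods_Gamma0
-- import your own Fermat.Agent.* helpers here

set_option autoImplicit false
open WeierstrassCurve WeierstrassCurve.Affine WeierstrassCurve.Affine.Point
open CuspForm ModularFormClass UpperHalfPlane
open ModularForm

namespace Fermat.Agent.S07

open scoped MatrixGroups in
theorem index_Gamma0_two_le : (CongruenceSubgroup.Gamma0 2).index ≤ 4 := by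
  classical
  let φ : (SL(2, ℤ) ⧸ CongruenceSubgroup.Gamma0 2) → ZMod 2 × ZMod 2 :=
    fun q => (((q.out 0 0 : ℤ) : ZMod 2), ((q.out 1 0 : ℤ) : ZMod 2))
  have hφ : Function.Injective φ := by
    intro q q' h
    have h1 : ((q.out 0 0 : ℤ) : ZMod 2) = ((q'.out 0 0 : ℤ) : ZMod 2) := congrArg Prod.fst h
    have h2 : ((q.out 1 0 : ℤ) : ZMod 2) = ((q'.out 1 0 : ℤ) : ZMod 2) := congrArg Prod.snd h
    rw [← QuotientGroup.out_eq' q, ← QuotientGroup.out_eq' q', QuotientGroup.eq,
      CongruenceSubgroup.Gamma0_mem]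
    have h3 : ((q.out)⁻¹ * q'.out) 1 0 = - (q.out 1 0) * (q'.out 0 0) + (q.out 0 0) * (q'.out 1 0) := by
      rw [Matrix.SpecialLinearGroup.coe_mul, Matrix.SpecialLinearGroup.SL2_inv_expl]
      simp [Matrix.mul_apply, Fin.sum_univ_two]
    rw [h3]
    push_cast
    rw [h1, h2]
    ring
  have := Nat.card_le_card_of_injective φ hφ
  simpa [Subgroup.index, Nat.card_prod] using this

theorem result (f : CuspForm (CongruenceSubgroup.Gamma0 2) 2) : f = 0 := by
  have hidx := index_Gamma0_two_le
  have h0 : (f : ModularForm (CongruenceSubgroup.Gamma0 2) 2) = 0 := by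
    apply ModularForm.sturm_bound_Gamma0 2
    intro n hn
    have hn0 : n = 0 := by
      have : ((2 : ℤ) * ((CongruenceSubgroup.Gamma0 2).index : ℤ)).toNat / 12 = 0 := by
        apply Nat.div_eq_of_lt
        omega
      omega
    subst hn0
    exact CuspFormClass.qExpansion_coeff_zero f one_pos
      (CongruenceSubgroup.one_mem_strictPeriods_Gamma0 2)
  ext z
  exact DFunLike.congr_fun h0 z

end Fermat.Agent.S07
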