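-- Statement S24: genus of the function field of X_0(N) over the algebraic closure of the rationals.
import Fermat.Statements.S24
import Fermat.Agent.S24.Assembly
import Fermat.Agent.S24.CharpolyAlt
import Fermat.Agent.S24.CuspFinal

set_option autoImplicit false
open ModularCurve

namespace Fermat.Agent.S24

theorem result (N : ℕ) [NeZero N]
    [AlgebraicCurve.HasCanonicalDivisor (K := AlgebraicClosure ℚ) (F := ↥(ModularCurve.modularFunctionFieldBar N))] :
    (AlgebraicCurve.genus (AlgebraicClosure ℚ) ↥(ModularCurve.modularFunctionFieldBar N) : ℚ)
      = ModularCurve.genusFormula N :=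
  have hP := CPAlt.charpolyCoeff N
  result_of_charpolyCoeff_of_targetCusp N hP
    (CuspF.targetCusp_of N (isFiniteParam_jF_of N hP) (degree_of_charpolyCoeff N hP).2)

end Fermat.Agent.S24
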