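import Fermat.Statements.S05
import Fermat.Agent.S05.Frey
import Fermat.Agent.S05.Inertia

set_option autoImplicit false
open WeierstrassCurve WeierstrassCurve.Affine WeierstrassCurve.Affine.Point
open CuspForm ModularFormClass UpperHalfPlane
open FreyPackage

namespace Fermat.Agent.S05

theorem result (P : FreyPackage) {q : ℕ} (hq : q.Prime) (hq2 : q ≠ 2) (hqp : q ≠ P.p) : P.GaloisRepUnramifiedAt q := by
  intro A hA σ hσ x
  apply Subtype.ext
  have hqA : A.valuation ((q : ℕ) : AlgebraicClosure ℚ) < 1 := hA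
  have D : PrimeData A P.p q :=
    ⟨P.pp, by have := P.hp5; omega, hq, hqp.symm, hqA⟩
  have G : GalData A (P.freyCurve⁄(AlgebraicClosure ℚ)) (σ : AlgebraicClosure ℚ →+* AlgebraicClosure ℚ)
      (Point.map (W' := P.freyCurve) σ.toAlgHom) := by
    refine ⟨?_, ?_⟩
    · intro Q hQ
      cases Q with
      | zero => exact absurd rfl hQ
      | some x y h =>
        rw [Point.map_some]
        exact ⟨some_ne_zero _, rfl, rfl⟩
    · intro x hx
      exact inertia_spec A σ hσ x hx
  have hx : P.p • x.1 = 0 := by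
    have := x.2
    rw [Submodule.mem_torsionBy_iff] at this
    rw [← natCast_zsmul]
    exact this
  have hab : ¬ ((q : ℤ) ∣ P.a ∧ (q : ℤ) ∣ P.b) := by
    rintro ⟨h1, h2⟩
    have h3 : (q : ℤ) ∣ gcd P.a P.b := dvd_gcd h1 h2
    rw [P.hgcdab] at h3
    exact (Nat.prime_iff_prime_int.1 hq).not_isUnit (isUnit_of_dvd_one h3)
  exact frey_fixed D G hq2 P.a P.b P.c P.ha0 P.hb0 P.hc0 (fun n hn => by exact_mod_cast hn) P.hFLT hab
    (by simp [FreyPackage.freyCurve]) (by simp [FreyPackage.freyCurve])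
    (by simp [FreyPackage.freyCurve]) (by simp [FreyPackage.freyCurve])
    (by simp [FreyPackage.freyCurve]) hx

end Fermat.Agent.S05
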