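import Fermat.Statements.S13
import Fermat.Agent.S05
import Fermat.Agent.S13.Glue
import Fermat.Agent.S13.WPA
import Fermat.Agent.S13.WPB
import Fermat.Agent.S13.LocP
import Fermat.Agent.S13.WPD
import Fermat.Agent.S13.WPE
import Fermat.Agent.S13.Minkowski

set_option autoImplicit false
open WeierstrassCurve WeierstrassCurve.Affine WeierstrassCurve.Affine.Point
open CuspForm ModularFormClass UpperHalfPlane
open FreyPackage

namespace Fermat.Agent.S13

theorem result (P : FreyPackage) (hred : ¬ GaloisRepIsIrreducible (K := AlgebraicClosure ℚ) ℚ P.freyCurve P.p) : HasGaloisStableCofixedLine (K := AlgebraicClosure ℚ) ℚ P.freyCurve P.p := by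
  exact assembly P (wpA_nontrivial P) (wpA_finite P) (wpA_card P) (wpB P) (wpC P)
    (fun A hA σ hσ x => wpD P A hA σ σ hσ hσ x)
    (fun _ hq hq2 hqp => Fermat.Agent.S05.result P hq hq2 hqp) (wpE P)
    (fun H _ hopen hin => eq_top_of_inertia_le H hopen hin) exists_place hred

end Fermat.Agent.S13
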