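import Fermat.Statements.S22
import Fermat.Agent.S22.Stable
import Fermat.Agent.S22.Alg
import Fermat.Agent.S22.Separation
import Fermat.Agent.S22.LowWeight

set_option autoImplicit false
open CuspForm

namespace Fermat.Agent.S22

theorem result_of_two_le (N : ℕ) [NeZero N] (w : ℕ) (S : Set ℕ) :
    Module.Finite ℤ (CuspForm.heckeAlgebra N ((w : ℤ) + 2) S) := by
  refine finite_adjoin_of_lattice (CuspForm.heckeGenerators N ((w : ℤ) + 2) S) (periodLam N w)
    (periodLam_fg w) ?_ ?_
  · intro g hg l hl
    induction hl using Submodule.span_induction with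
    | mem x hx =>
      obtain ⟨⟨γ, i⟩, rfl⟩ := hx
      rcases hg with ⟨ℓ, hℓ, hℓN, -, rfl⟩ | ⟨q, hqN, hq, -, rfl⟩
      · exact lam_comp_heckeT w hℓ hℓN γ i
      · exact lam_comp_heckeU w hq hqN γ i
    | zero => simp
    | add x y _ _ hx hy =>
      rw [LinearMap.add_comp]
      exact (periodLam N w).add_mem hx hy
    | smul a x _ hx =>
      rw [LinearMap.smul_comp]
      exact (periodLam N w).smul_mem a hx
  · intro f hf
    have hF := eichler_spec (w + 1) f
    refine separation N w f (eichler (w + 1) f) hF.mdiff hF.per hF.zero hF.iter ?_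
    rintro _ ⟨g, hg, rfl⟩
    have h0 : pp w ⟨g, hg⟩ f = 0 := by
      ext i
      have := hf _ (lam_mem w ⟨g, hg⟩ i)
      rw [lam_apply] at this
      simpa using this
    have := eichler_slash w ⟨g, hg⟩ f
    rw [h0, ev_zero, zero_add] at this
    exact this

theorem result (N : ℕ) [NeZero N] (k : ℤ) (S : Set ℕ) :
    Module.Finite ℤ (CuspForm.heckeAlgebra N k S) := by
  rcases le_or_gt k 1 with hk | hk
  · exact result_of_weight_le_one N hk S
  · obtain ⟨w, rfl⟩ : ∃ w : ℕ, k = (w : ℤ) + 2 := ⟨(k - 2).toNat, by omega⟩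
    exact result_of_two_le N w S

end Fermat.Agent.S22
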