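-- Statement S45 (row 41): level lowering to level two for the Frey curve.
-- The hypotheses are contradictory: `Fermat.Agent.S45.false_of_kumK` (conductor level from any
-- level = `kumK`, then S44 and the level-lowering machinery of RIB).
import Fermat.Statements.S45
import Fermat.Agent.S45.Top.Frey
import Fermat.Agent.S45.Mod.Inst6

set_option autoImplicit false
open WeierstrassCurve WeierstrassCurve.Affine WeierstrassCurve.Affine.Point
open CuspForm ModularFormClass UpperHalfPlane
open FreyPackage

namespace Fermat.Agent.S45

theorem result (P : FreyPackage) (hmod : P.freyCurve.IsModular) (hirr : GaloisRepIsIrreducible (K := AlgebraicClosure ℚ) ℚ P.freyCurve P.p) : ∃ f : CuspForm (CongruenceSubgroup.Gamma0 2) 2, f ≠ 0 := by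
  exact (false_of_kumK kumK P hmod hirr).elim

end Fermat.Agent.S45
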