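import Fermat.Statements.S51
import Fermat.Agent.S51.ExistsXi
import Fermat.Agent.S51.ExistsD
import Fermat.Agent.S51.ArithCore
import Fermat.Agent.S51.RankZero

set_option autoImplicit false
open WeierstrassCurve WeierstrassCurve.Affine WeierstrassCurve.Affine.Point
open CuspForm ModularFormClass UpperHalfPlane
open WeierstrassCurve

namespace Fermat.Agent.S51

theorem result (W : WeierstrassCurve ℤ) (hΔ : W.Δ ≠ 0) (hW : W.IsSemistableModel) : W.ModRepIsIrreducible 3 ∨ W.ModRepIsIrreducible 5 := by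
  by_contra hcon
  push Not at hcon
  obtain ⟨ξ, h3⟩ := exists_xi W hΔ hcon.1
  obtain ⟨d, hd, h5⟩ := exists_d W hΔ hcon.2
  exact arith_core ratPoints_A W.c₄ W.c₆ W.Δ hΔ (by have := W.c_relation; linarith) hW ξ d hd h3 h5

end Fermat.Agent.S51
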