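import Fermat.Statements.S19
import Fermat.Agent.S19.A.Sub
import Fermat.Agent.S19.B.Nondeg
import Fermat.Agent.S19.C.Main
import Fermat.Agent.S19.Div
import Fermat.Agent.S19.M.Pkg
import Fermat.Agent.RED.S37.PicDesc
import Fermat.Agent.RED.S37.GalEq
import Fermat.Agent.S54.Frobenius

set_option autoImplicit false
set_option synthInstance.maxHeartbeats 400000
open ModularCurve
open ModularCurve

namespace Fermat.Agent.S19

open AlgebraicCurve Fermat.Agent.S27 Fermat.Agent.RED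

/-- the `n`-torsion of `J₀(M)` as a type. -/
abbrev Tor (M : ℕ) (n : ℤ) : Type := ↥(Submodule.torsionBy ℤ (JZero M) n)

theorem smul_mem_tor (M : ℕ) (n : ℤ) (σ : Gam) {x : JZero M}
    (hx : x ∈ Submodule.torsionBy ℤ (JZero M) n) : σ • x ∈ Submodule.torsionBy ℤ (JZero M) n := by
  rw [Submodule.mem_torsionBy_iff] at hx ⊢
  have h := map_zsmul (DistribSMul.toAddMonoidHom (JZero M) σ) n x
  have h' : σ • (n • x) = n • (σ • x) := h
  rw [← h', hx, smul_zero]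

noncomputable instance instActionTor (M : ℕ) (n : ℤ) : DistribMulAction Gam (Tor M n) where
  smul σ x := ⟨σ • (x : JZero M), smul_mem_tor M n σ x.2⟩
  one_smul x := Subtype.ext (one_smul _ (x : JZero M))
  mul_smul σ τ x := Subtype.ext (mul_smul σ τ (x : JZero M))
  smul_zero σ := Subtype.ext (smul_zero (A := JZero M) σ)
  smul_add σ x y := Subtype.ext (smul_add σ (x : JZero M) (y : JZero M))

theorem coe_smul_tor (M : ℕ) (n : ℤ) (σ : Gam) (x : Tor M n) :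
    ((σ • x : Tor M n) : JZero M) = σ • (x : JZero M) := rfl

theorem nsmul_eq_zero_of_tor {M : ℕ} {ℓ k : ℕ} (x : Tor M ((ℓ : ℤ) ^ k)) :
    ℓ ^ k • (x : JZero M) = 0 := by
  have h := (Submodule.mem_torsionBy_iff _ _).1 x.2
  have h2 : ((ℓ ^ k : ℕ) : ℤ) • (x : JZero M) = 0 := by
    rw [Nat.cast_pow]; exact h
  rwa [natCast_zsmul] at h2

theorem finite_tor (M : ℕ) [NeZero M] (ℓ k : ℕ) (hℓ : 0 < ℓ) : Finite (Tor M ((ℓ : ℤ) ^ k)) := by
  have h1 := card_torsion_small_proof Qb (FM M) ⟨(IsAlgClosed.lift : Qb →ₐ[ℚ] ℂ).toRingHom⟩ (ℓ ^ k)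
    (pow_pos hℓ k)
  have h2 : Finite (Pic0.torsion Qb (FM M) (ℓ ^ k)) := by
    apply Nat.finite_of_card_ne_zero
    rw [h1]
    exact (pow_pos (pow_pos hℓ k) _).ne'
  have h3 : (Pic0.torsion Qb (FM M) (ℓ ^ k) : Set (JZero M)) =
      (Submodule.torsionBy ℤ (JZero M) ((ℓ : ℤ) ^ k) : Set (JZero M)) := by
    ext x
    simp [Pic0.torsion]
  exact (Set.finite_coe_iff.2 (h3 ▸ Set.finite_coe_iff.1 h2))

theorem divisible_cover (ℓ : ℕ) (hℓ : 0 < ℓ) (F' : Type) [Field F'] [Algebra Qb F'] [IsFF Qb F']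
    (z : Pic0 Qb F') : ∃ w : Pic0 Qb F', ℓ • w = z :=
  pic0_divisible Qb F' ⟨(IsAlgClosed.lift : Qb →ₐ[ℚ] ℂ).toRingHom⟩ ℓ hℓ z

/-- the Weil pairing on the torsion of `J₀(M)`. -/
noncomputable def eM (M : ℕ) [NeZero M] (ℓ k : ℕ) (x y : Tor M ((ℓ : ℤ) ^ k)) : Qb :=
  weil (ℓ ^ k) (x : JZero M) (y : JZero M)

section Level

variable (M : ℕ) [NeZero M] (ℓ k : ℕ)

theorem eM_ne_zero (x y : Tor M ((ℓ : ℤ) ^ k)) : eM M ℓ k x y ≠ 0 := weil_ne_zero _ _ _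

theorem eM_add_left (x x' y : Tor M ((ℓ : ℤ) ^ k)) :
    eM M ℓ k (x + x') y = eM M ℓ k x y * eM M ℓ k x' y :=
  weil_add_left (nsmul_eq_zero_of_tor x) (nsmul_eq_zero_of_tor x') (nsmul_eq_zero_of_tor y)

theorem eM_add_right (x y y' : Tor M ((ℓ : ℤ) ^ k)) :
    eM M ℓ k x (y + y') = eM M ℓ k x y * eM M ℓ k x y' :=
  weil_add_right (nsmul_eq_zero_of_tor x) (nsmul_eq_zero_of_tor y) (nsmul_eq_zero_of_tor y')

theorem eM_smul (σ : Gam) (x y : Tor M ((ℓ : ℤ) ^ k)) :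
    eM M ℓ k (σ • x) (σ • y) = σ (eM M ℓ k x y) :=
  weil_smul (galM M σ) (nsmul_eq_zero_of_tor x) (nsmul_eq_zero_of_tor y)

theorem eM_nondeg (hℓ : ℓ.Prime) (x : Tor M ((ℓ : ℤ) ^ k)) (hx : ∀ y, eM M ℓ k x y = 1) : x = 0 :=
  Subtype.ext (weil_nondeg hℓ k (divisible_cover ℓ hℓ.pos)
    (nsmul_eq_zero_of_tor x) (fun y hy => hx ⟨y, by
      rw [Submodule.mem_torsionBy_iff, ← Nat.cast_pow, natCast_zsmul]; exact hy⟩))

theorem eM_mem_intSpan [Fact ℓ.Prime] (A : ValuationSubring Qb) (hA : A.LiesOverPrime ℓ)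
    (P : RedPkg A (FM M) (galM M) (kA A) (FbM A M)) (x : Tor M ((ℓ : ℤ) ^ k)) :
    eM M ℓ k x ∈ intSpan A (Tor M ((ℓ : ℤ) ^ k)) :=
  haveI := finite_tor M ℓ k (Fact.out : ℓ.Prime).pos
  weil_mem_intSpan P hA (fun y : Tor M ((ℓ : ℤ) ^ k) => (y : JZero M))
    (fun _ _ => rfl) (pow_pos (Fact.out : ℓ.Prime).pos k) (fun y => nsmul_eq_zero_of_tor y)
    (x : JZero M) (nsmul_eq_zero_of_tor x)

end Level

section Embed

variable (p c : ℕ) [NeZero p] [NeZero c] (n : ℤ)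

/-- `B^*` on torsion. -/
noncomputable def iotaB (hB : HeckeInputsAlong Kb p c) : Tor p n →+ Tor (p * c) n where
  toFun x := ⟨Bstar p c hB (x : JZero p), by
    rw [Submodule.mem_torsionBy_iff, ← map_zsmul, (Submodule.mem_torsionBy_iff _ _).1 x.2,
      map_zero]⟩
  map_zero' := Subtype.ext (map_zero _)
  map_add' x y := Subtype.ext (map_add _ _ _)

theorem iotaB_smul (hB : HeckeInputsAlong Kb p c) (σ : Gam) (y : Tor p n) :
    iotaB p c n hB (σ • y) = σ • iotaB p c n hB y :=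
  Subtype.ext (Bstar_smul p c hB σ (y : JZero p))

theorem iotaB_injective (hc : c = 4 ∨ c = 9) (hB : HeckeInputsAlong Kb p c) (ℓ k : ℕ)
    (hℓ : 0 < ℓ) : Function.Injective (iotaB p c ((ℓ : ℤ) ^ k) hB) := by
  intro x y hxy
  have h : Bstar p c hB ((x : JZero p) - (y : JZero p)) = 0 := by
    rw [map_sub, sub_eq_zero]
    exact congrArg Subtype.val hxy
  have h0 := Bstar_eq_zero_of_torsion p c hc hB _ (ℓ ^ k)
    (pow_pos hℓ k).ne' (by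
      rw [nsmul_sub, nsmul_eq_zero_of_tor x, nsmul_eq_zero_of_tor y, sub_zero]) h
  exact Subtype.ext (sub_eq_zero.1 h0)

end Embed

theorem result
    (p : ℕ) [NeZero p] (ℓ : ℕ) [Fact ℓ.Prime] (hℓp : ¬ ℓ ∣ p) (k : ℕ) :
    ∃ (H : Type) (_ : CommRing H) (_ : HopfAlgebra (GaloisRep.ratLocalizedAt ℓ) H),
      Module.Finite (GaloisRep.ratLocalizedAt ℓ) H ∧ Module.Flat (GaloisRep.ratLocalizedAt ℓ) H ∧
      Coalgebra.IsCocomm (GaloisRep.ratLocalizedAt ℓ) H ∧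
      ∃ e : WithConv (H →ₐ[GaloisRep.ratLocalizedAt ℓ] AlgebraicClosure ℚ) ≃
          ↥(Submodule.torsionBy ℤ (JZero p) ((ℓ : ℤ) ^ k)),
        (∀ f g, e (f * g) = e f + e g) ∧
        ∀ (σ : AlgebraicClosure ℚ ≃ₐ[ℚ] AlgebraicClosure ℚ)
          (f g : WithConv (H →ₐ[GaloisRep.ratLocalizedAt ℓ] AlgebraicClosure ℚ)),
          (∀ h : H, g h = σ (f h)) → ((e g : JZero p)) = σ • (e f : JZero p) := by
  have hℓ : ℓ.Prime := Fact.out
  obtain ⟨A, hA⟩ := Fermat.Agent.S54.exists_liesOverPrime hℓ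
  have h49 : 4 ∣ p * aux ℓ ∨ 9 ∣ p * aux ℓ := by
    rcases aux_eq ℓ with h | h <;> rw [h] <;> simp
  have hℓM : ¬ ℓ ∣ p * aux ℓ := not_dvd_mul_aux hℓ hℓp
  obtain ⟨P⟩ := exists_redPkg (p * aux ℓ) A hA hℓM h49
  have hB := heckeInputsAlong' p (aux ℓ)
  have := finite_tor (p * aux ℓ) ℓ k hℓ.pos
  have := finite_tor p ℓ k hℓ.pos
  obtain ⟨H, i1, i2, h1, h2, h3, e', he1, he2⟩ :=
    exists_model_of_pairing_sub (G' := Tor (p * aux ℓ) ((ℓ : ℤ) ^ k)) (G := Tor p ((ℓ : ℤ) ^ k))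
      A hA (eM (p * aux ℓ) ℓ k) (eM_ne_zero _ _ _) (eM_add_left _ _ _) (eM_add_right _ _ _)
      (eM_smul _ _ _) (eM_nondeg _ _ _ hℓ) (eM_mem_intSpan _ _ _ A hA P)
      (iotaB p (aux ℓ) _ hB) (iotaB_injective p (aux ℓ) (aux_eq ℓ) hB ℓ k hℓ.pos)
      (iotaB_smul p (aux ℓ) _ hB)
  exact ⟨H, i1, i2, h1, h2, h3, e', he1, fun σ f g hfg => congrArg Subtype.val (he2 σ f g hfg)⟩

end Fermat.Agent.S19
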