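-- Statement S20: dim S_2(Gamma0(N)) equals the genus formula.
import Fermat.Statements.S20
import Fermat.Agent.S20.Main
import Fermat.Agent.S20.Bridge
import Fermat.Agent.S20.Separate
import Fermat.Agent.S20.CombCusps
import Fermat.Agent.S20.Cusp3
import Fermat.Agent.S20.CuspValue
import Fermat.Agent.S20.CuspRankS

set_option autoImplicit false
open CuspForm

namespace Fermat.Agent.S20

theorem result (N : ℕ) [NeZero N] :
    (Module.finrank ℂ (CuspForm (CongruenceSubgroup.Gamma0 N) 2) : ℚ) = ModularCurve.genusFormula N := by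
  classical
  have : Fintype (Matrix.SpecialLinearGroup (Fin 2) ℤ ⧸ CongruenceSubgroup.Gamma0 N) :=
    Fintype.ofFinite _
  have hneg : ∀ k : ℤ, k < 0 →
      VMF (Matrix.SpecialLinearGroup (Fin 2) ℤ ⧸ CongruenceSubgroup.Gamma0 N) k = ⊥ :=
    fun k hk => (Submodule.eq_bot_iff _).mpr fun G hG => VMF_eq_zero_of_neg hk hG
  obtain ⟨κ, F, h⟩ := exists_isFundSystem
    (X := Matrix.SpecialLinearGroup (Fin 2) ℤ ⧸ CongruenceSubgroup.Gamma0 N)
    (neg_one_smul_Gamma0 N) (exists_separating N) (finiteDimensional_VMF hneg)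
    (finrank_VMF_le hneg)
  have hev := h.even (neg_one_smul_Gamma0 N)
  have hC := leadMatrix_det_ne_zero h hev
  have hVCF : ∀ k : ℤ, Module.finrank ℂ
      (VCF (Matrix.SpecialLinearGroup (Fin 2) ℤ ⧸ CongruenceSubgroup.Gamma0 N) k) =
      ∑ j, δ (k + κ j - 12) := fun k =>
    finrank_VCF_eq_of_zero h k fun _ _ hb hH => isZeroAtImInfty_of_dual h hC hb hH
  have key := dim_formula_of_isFundSystem (neg_one_smul_Gamma0 N) h hVCF
    ⟨∑ j, |κ j| + 12, fun K hK hKe => by
      rw [← finrank_TInv]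
      refine finrank_VMF_eq_VCF_add' h hev K hKe fun j => ?_
      have h1 : |κ j| ≤ ∑ j, |κ j| :=
        Finset.single_le_sum (f := fun j => |κ j|) (fun i _ => abs_nonneg _) (Finset.mem_univ j)
      have h2 := le_abs_self (κ j)
      omega⟩
  have hT : Nat.card (MulAction.orbitRel.Quotient (Subgroup.zpowers ModularGroup.T)
      (Matrix.SpecialLinearGroup (Fin 2) ℤ ⧸ CongruenceSubgroup.Gamma0 N)) =
      ModularCurve.cuspCount N := card_orbits_T N
  rw [finrank_cuspForm_Gamma0, key, ModularCurve.genusFormula, card_fixedBy_S, card_fixedBy_ST,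
    ← Nat.card_eq_fintype_card, card_quotient_Gamma0]
  congr 3

end Fermat.Agent.S20
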