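-- Statement S14: the Ext-vanishing property `ExtVanishingCts p` for every prime `p ≥ 3`.
import Fermat.Statements.S14
import Fermat.Agent.S14.PartA.Main
import Fermat.Agent.S14.Core.Main

set_option autoImplicit false
open ExtCitation

namespace Fermat.Agent.S14

theorem result {p : ℕ} [Fact p.Prime] (h3 : 3 ≤ p) :
    ExtCitation.ExtVanishingCts p :=
  Fermat.Agent.S14.extVanishingCts_of_core h3
    (fun K _ _ _ ζ hζ α h0 hα ht ho hl =>
      Fermat.Agent.S14.core (by omega) hζ α h0 hα ht ho (fun v hv => hl v hv p))

end Fermat.Agent.S14
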