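-- Statement S16 (row 15): index of the Eisenstein ideal in the integral Hecke algebra of level p.
import Fermat.Statements.S16
import Fermat.Agent.S16.Part0Alg
import Fermat.Agent.S16.Part0Surj
import Fermat.Agent.S16.Part0Cong
import Fermat.Agent.S16.CohFinal
import Fermat.Agent.S16.Upper
import Fermat.Agent.S16.UpperSmall
import Fermat.Agent.S23.Main

set_option autoImplicit false
open ModularCurve CuspForm
open ModularCurve

namespace Fermat.Agent.S16

/-- the upper bound, for all primes `p` -/
theorem upper_all (p : ℕ) [Fact p.Prime] (M : ℕ) (hM0 : M ≠ 0)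
    (hM : ∀ P : HeckeAlg, heckeEvalForms p 2 P = 0 →
      (M : ℤ) ∣ MvPolynomial.eval (eisensteinSystem p) P) : M ∣ eisensteinNumerator p := by
  obtain ⟨φ, ψ, hφ, hcong⟩ := exists_isQ_congr p M hM0 hM
  rcases Nat.lt_or_ge p 5 with hp | hp
  · exact dvd_trans (upper_small p hp hφ M hcong) (one_dvd _)
  · exact upper p hp hφ M hM0 hcong

theorem result
    (p : ℕ) [Fact p.Prime] :
    Nat.card (↥(heckeLatticeAlgebra p ∅) ⧸
        Ideal.map ((latticeRestrictHom p ∅).toRingHom.comp (heckeEvalForms p 2))
          (eisensteinIdeal p)) =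
      eisensteinNumerator p := by
  have hπ0 : ∀ P, ((latticeRestrictHom p ∅).toRingHom.comp (heckeEvalForms p 2)) P = 0 →
      heckeEvalForms p 2 P = 0 := fun P hP =>
    (latticeRestrictHom_bijective p ∅ (Fermat.Agent.S23.hasIntegralStructure p 2)).1
      (hP.trans (map_zero _).symm)
  have hae : ∀ P : HeckeAlg, MvPolynomial.aeval (eisensteinSystem p) P =
      MvPolynomial.eval (eisensteinSystem p) P := fun P => rfl
  have hn0 : 0 < eisensteinNumerator p := eisensteinNumerator_pos p
  refine natCard_quot_map_ker _
    ((latticeRestrictHom_surjective p ∅).comp (heckeEvalForms_surjective p 2))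
    (eisensteinSystem p) _ (fun P hP => ?_) (fun M hM => ?_)
  · rw [hae]
    exact eis_dvd p P (hπ0 P hP)
  · by_cases hM0 : M = 0
    · exfalso
      subst hM0
      have h1 := upper_all p (eisensteinNumerator p + 1) (Nat.succ_ne_zero _) fun P hP => by
        have h2 := hM P (by
          change (latticeRestrictHom p ∅) (heckeEvalForms p 2 P) = 0
          rw [hP, map_zero])
        rw [zero_dvd_iff, hae] at h2
        rw [h2]
        exact dvd_zero _
      have := Nat.le_of_dvd hn0 h1
      omega
    · have h1 := upper_all p M.natAbs (Int.natAbs_ne_zero.mpr hM0) fun P hP => by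
        have h2 := hM P (by
          change (latticeRestrictHom p ∅) (heckeEvalForms p 2 P) = 0
          rw [hP, map_zero])
        rw [hae] at h2
        exact Int.natAbs_dvd.mpr h2
      exact Int.natAbs_dvd_natAbs.mp (by simpa using h1)

end Fermat.Agent.S16
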