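-- S17: Mordell-Weil for J0(N) (weak Mordell-Weil: S17/WMW; heights: S17/El, S17/AH; descent: S17/Final).
import Fermat.Statements.S17
import Fermat.Agent.S17.Final

set_option autoImplicit false
open ModularCurve AlgebraicCurve
open ModularCurve ModularCurve.JZero

namespace Fermat.Agent.S17

theorem result (N : ℕ) [NeZero N] (hN : N.Prime) (hN5 : 5 ≤ N) :
    AddGroup.FG ↥(FixedPoints.addSubgroup ((AlgebraicClosure ℚ) ≃ₐ[ℚ] (AlgebraicClosure ℚ)) (JZero N)) :=
  mordellWeil N

end Fermat.Agent.S17
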