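-- Statement S28: the special fibre of the Igusa model of X_0(N) at a prime not dividing N is integral.
import Fermat.Statements.S28
import Fermat.Agent.S28.Core
import Fermat.Agent.S28.Analytic.Main
import Fermat.Agent.S28.Glue
import Fermat.Agent.S28.Scheme

set_option autoImplicit false
open AlgebraicGeometry CategoryTheory CategoryTheory.Limits ModularCurve ModularCurve.IgusaScheme
noncomputable section
set_option autoImplicit false
open ModularCurve ModularCurve.IgusaScheme

namespace Fermat.Agent.S28

set_option maxHeartbeats 4000000 in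
set_option synthInstance.maxHeartbeats 400000 in
theorem result
    (N : ℕ) [NeZero N] (ℓ : ℕ) [Fact ℓ.Prime] (hℓN : ¬ ℓ ∣ N)
    (K : Type) [Field K] [CharP K ℓ] [Algebra ↥(GaloisRep.ratLocalizedAt ℓ) K] :
    IsIntegral ↑(pullback (igusaTo N ℓ)
      (Spec.map (CommRingCat.ofHom (algebraMap ↥(GaloisRep.ratLocalizedAt ℓ) K)))) := by
  obtain ⟨u, ι, _, _, c₀, U, H, hfam⟩ := exists_rootFamily N
  have hin := algInput_of_isCore (isCore_of_rootFamily N ℓ hℓN u c₀ U H hfam)
  exact isIntegral_pullback_of_isDomain N ℓ K (isDomain_chartAlgFin_tensor hin K)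
    (isDomain_chartAlgInf_tensor hin K) (nontrivial_chartAlgMid_tensor hin K)

end Fermat.Agent.S28
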