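import Fermat.Statements.S40
import Fermat.Agent.S40.Top
import Fermat.Agent.S40.Geo.Spec

set_option autoImplicit false
open WeierstrassCurve

namespace Fermat.Agent.S40

theorem result
    (W : WeierstrassCurve ℤ) (hΔ : W.Δ ≠ 0)
    {p : ℕ} (hp : p.Prime) (hp2 : p ≠ 2)
    (hgood : W.IsGoodPrimeFor p)
    (hirr : W.ModRepIsIrreducible p)
    {M : ℕ} (hM : 0 < M) (hpM : p ∣ M) (hp2M : ¬ p ^ 2 ∣ M)
    (hmod : W.IsResiduallyModularOfLevel p M) :
    W.IsResiduallyModularOfLevel p (M / p) := by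
  obtain ⟨M', rfl⟩ : ∃ M', M = M' * p := ⟨M / p, (Nat.div_mul_cancel hpM).symm⟩
  rw [Nat.mul_div_cancel M' hp.pos]
  have hM'0 : M' ≠ 0 := by
    rintro rfl
    simp at hM
  have : NeZero M' := ⟨hM'0⟩
  have : NeZero p := ⟨hp.ne_zero⟩
  have hpM' : ¬ p ∣ M' := by
    intro h
    apply hp2M
    rw [sq]
    exact Nat.mul_dvd_mul_right h p
  exact top40 W hΔ hp hp2 hgood hirr (geoA hp hp2 hpM') (geoB hp hp2 hpM') hmod

end Fermat.Agent.S40
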