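import Fermat.Statements.S42
import Fermat.Agent.GAL.Final
import Fermat.Agent.RR.Hurwitz

set_option autoImplicit false
open FreyPackage

namespace Fermat.Agent.S42

theorem result (P : FreyPackage) :
    ∀ M : ℕ, 0 < M → P.EigenformResidualAttachmentAt M :=
  Fermat.Agent.GAL.Final.s42
    (fun _ _ _ _ _ _ _ _ _ _ _ _ h1 h2 => Fermat.Agent.RR.rhRel h1 h2) P

end Fermat.Agent.S42
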