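-- Statement S43 (row 37): Ribet's level lowering, Frey-curve form.
-- `Fermat.Agent.RIB.false_of_modular` (route RIB: Mazur's principle + one deep Taylor-Wiles level + counting) and S44.
import Fermat.Statements.S43
import Fermat.Agent.RIB.Wrap.Final
import Fermat.Agent.S44

set_option autoImplicit false
open WeierstrassCurve WeierstrassCurve.Affine WeierstrassCurve.Affine.Point
open CuspForm ModularFormClass UpperHalfPlane
open FreyPackage

namespace Fermat.Agent.S43

theorem result (P : FreyPackage) {N q : ℕ} (hcond : P.IsConductorLevel N) (hq : q.Prime) (hq2 : q ≠ 2) (hqp : q ≠ P.p) (hqN : q ∣ N) (hirr : GaloisRepIsIrreducible (K := AlgebraicClosure ℚ) ℚ P.freyCurve P.p) (hmod : P.ModularRepOfLevel N) (hunr : P.GaloisRepUnramifiedAt q) : ∃ M : ℕ, M ∣ N ∧ ¬ q ∣ M ∧ P.ModularRepOfLevel M := by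
  by_cases hpN : P.p ∣ N
  · obtain ⟨M, hMN, hpM, hmodM⟩ := Fermat.Agent.S44.result P hcond hpN hirr hmod
    exact (Fermat.Agent.RIB.false_of_modular P
      (hcond.of_dvd hMN (Nat.pos_of_dvd_of_pos hMN hcond.pos)) hpM hirr hmodM).elim
  · exact (Fermat.Agent.RIB.false_of_modular P hcond hpN hirr hmod).elim

end Fermat.Agent.S43
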