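import Fermat.Statements.S56
import Fermat.Agent.S56.Asm.Main
import Fermat.Agent.S56.TW.Sel
import Fermat.Agent.S56.Loc.Ord
import Fermat.Agent.S56.Loc.Flat

set_option autoImplicit false
set_option autoImplicit false
open Polynomial IsLocalRing
open ResidualGaloisRep

namespace Fermat.Agent.S56

theorem result
    {𝒪 : Type} [CommRing 𝒪] [IsDomain 𝒪] [IsDiscreteValuationRing 𝒪]
    [IsAdicComplete (maximalIdeal 𝒪) 𝒪] [Finite (ResidueField 𝒪)]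
    (p : ℕ) [Fact p.Prime] (hp2 : p ≠ 2) (hp𝒪 : (p : 𝒪) ∈ maximalIdeal 𝒪)
    (ρbar : ResidualGaloisRep (ResidueField 𝒪))
    (habs : ρbar.IsAbsolutelyIrreducible)
    (hdet : (GaloisRepAdic.ofResidualGaloisRep ρbar).DetIsCyclotomic p)
    (hsplit : ∀ σ : AlgebraicClosure ℚ ≃ₐ[ℚ] AlgebraicClosure ℚ,
      ∃ α β : ResidueField 𝒪, LinearMap.charpoly (ρbar.ρ σ) = (X - C α) * (X - C β))
    (hTW : ∀ (K : Type) [Field K] [Algebra (ResidueField 𝒪) K]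
      (G : Subgroup (AlgebraicClosure ℚ ≃ₐ[ℚ] AlgebraicClosure ℚ)), G.index = 2 →
      ∀ V : Submodule K (ρbar.baseChange K).V,
        (∀ σ ∈ G, ∀ x ∈ V, (ρbar.baseChange K).ρ σ x ∈ V) → V = ⊥ ∨ V = ⊤)
    (S Smin : Finset ℕ) (hpSmin : p ∈ Smin) (hSmin : Smin ⊆ S) (hS : ∀ q ∈ S, q.Prime)
    (hmin : ∀ q : ℕ, q.Prime → q ≠ p → (q ∈ Smin ↔ ¬ ρbar.IsUnramifiedAt q)) :
    (∃ r : ℕ, ∀ n : ℕ, ∃ qv : Fin r → ℕ, Function.Injective qv ∧
      (∀ i, (qv i).Prime ∧ qv i ∉ S ∧ p ^ (n + 1) ∣ qv i - 1) ∧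
      (∀ i, ∀ P : ValuationSubring (AlgebraicClosure ℚ), P.LiesOverPrime (qv i) →
        ∀ φ : AlgebraicClosure ℚ ≃ₐ[ℚ] AlgebraicClosure ℚ, P.IsFrobeniusAt φ (qv i) →
          ∃ α β : ResidueField 𝒪, α ≠ β ∧ LinearMap.charpoly (ρbar.ρ φ) = (X - C α) * (X - C β)) ∧
      ∀ DQ : GaloisRep.DeformationRingData 𝒪 ρbar (fun _A _ _ _ ρ =>
          GaloisRep.strictOrdinaryCondition 𝒪 p (Smin ∪ Finset.univ.image qv) ρ ∧
            ∀ q ∈ Smin, q.Prime → q ≠ p → ρ.IsUnipotentOnInertiaAt q),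
        ∃ γ : MvPowerSeries (Fin r) 𝒪 →ₐ[𝒪] DQ.R, Function.Surjective γ) ∧
    (∃ r : ℕ, ∀ n : ℕ, ∃ qv : Fin r → ℕ, Function.Injective qv ∧
      (∀ i, (qv i).Prime ∧ qv i ∉ S ∧ p ^ (n + 1) ∣ qv i - 1) ∧
      (∀ i, ∀ P : ValuationSubring (AlgebraicClosure ℚ), P.LiesOverPrime (qv i) →
        ∀ φ : AlgebraicClosure ℚ ≃ₐ[ℚ] AlgebraicClosure ℚ, P.IsFrobeniusAt φ (qv i) →
          ∃ α β : ResidueField 𝒪, α ≠ β ∧ LinearMap.charpoly (ρbar.ρ φ) = (X - C α) * (X - C β)) ∧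
      ∀ DQ : GaloisRep.DeformationRingData 𝒪 ρbar (fun _A _ _ _ ρ =>
          GaloisRep.flatCondition 𝒪 p (Smin ∪ Finset.univ.image qv) ρ ∧
            ∀ q ∈ Smin, q.Prime → q ≠ p → ρ.IsUnipotentOnInertiaAt q),
        ∃ γ : MvPowerSeries (Fin r) 𝒪 →ₐ[𝒪] DQ.R, Function.Surjective γ) := by
  classical
  haveI : CharP (ResidueField 𝒪) p := charP_residueField p hp𝒪
  have h2 : (2 : ResidueField 𝒪) ≠ 0 := two_ne_zero_of_charP p hp2
  let b : Module.Basis (Fin 2) (ResidueField 𝒪) ρbar.V :=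
    Module.finBasisOfFinrankEq (ResidueField 𝒪) ρbar.V ρbar.finrank_eq
  have h : RbarHyp p (S53.toMatRes ρbar b) := rbarHyp_of ρbar b habs hdet hsplit hTW
  have hur₀ := unramOutside_of (p := p) ρbar b Smin hpSmin hmin
  obtain ⟨S₁, hS₁⟩ := exists_S1_greenberg_wiles hp2 h
  have hur : UnramOutside (S53.toMatRes ρbar b) (toP Smin ∪ S₁) :=
    hur₀.mono Finset.subset_union_left
  have hpS : ExtCitation.pPrime p ∈ toP Smin ∪ S₁ := Finset.mem_union_left _ (mem_toP.2 hpSmin)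
  obtain ⟨r, hr⟩ := exists_tw_primes hp2 h (toP Smin ∪ S₁) hpS hur
  -- everything which does not depend on the condition at `p`
  have key : ∀ n : ℕ, ∃ qv' : Fin r → Nat.Primes, Function.Injective (fun i => (qv' i : ℕ)) ∧
      (∀ i, ((qv' i : ℕ)).Prime ∧ (qv' i : ℕ) ∉ S ∧ p ^ (n + 1) ∣ (qv' i : ℕ) - 1) ∧
      (∀ i, ∀ P : ValuationSubring (AlgebraicClosure ℚ), P.LiesOverPrime (qv' i : ℕ) →
        ∀ φ : AlgebraicClosure ℚ ≃ₐ[ℚ] AlgebraicClosure ℚ, P.IsFrobeniusAt φ (qv' i : ℕ) →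
          ∃ α β : ResidueField 𝒪, α ≠ β ∧
            LinearMap.charpoly (ρbar.ρ φ) = (X - C α) * (X - C β)) ∧
      ∀ (𝒟 : ∀ ⦃A : Type⦄ [CommRing A] [IsLocalRing A] [Algebra 𝒪 A], GaloisRepAdic A → Prop)
        (𝒟p : GaloisRepAdic (DualNumber (ResidueField 𝒪)) → Prop)
        (DQ : GaloisRep.DeformationRingData 𝒪 ρbar 𝒟),
        (∀ (φ : DQ.R →ₐ[𝒪] DualNumber (ResidueField 𝒪))
          (hφ : IsLocalHom (φ : DQ.R →+* DualNumber (ResidueField 𝒪))), Function.Surjective φ →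
          𝒟 (DQ.ρ.baseChangeAlong (φ : DQ.R →+* DualNumber (ResidueField 𝒪)) hφ)) →
        (∀ ρ₁ : GaloisRepAdic (DualNumber (ResidueField 𝒪)), 𝒟 ρ₁ →
          ρ₁.DetIsCyclotomic p ∧ 𝒟p ρ₁ ∧
          (∀ q : ℕ, q.Prime → q ∉ Smin ∪ Finset.univ.image (fun i => (qv' i : ℕ)) →
            ρ₁.IsUnramifiedAt q) ∧
          ∀ q ∈ Smin, q.Prime → q ≠ p → ρ₁.IsUnipotentOnInertiaAt q) →
        (∃ L : Submodule (ResidueField 𝒪)
            (↥(CFT.decomp (ExtCitation.pPrime p)) → sl2 (ResidueField 𝒪)),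
          B1loc (adRep (S53.toMatRes ρbar b)) (ExtCitation.pPrime p) ≤ L ∧
          L ≤ Z1loc (adRep (S53.toMatRes ρbar b)) (ExtCitation.pPrime p) ∧
          Finite ↥L ∧ Nat.card ↥L ≤ Nat.card (ResidueField 𝒪) ^ 4 ∧
          ∀ (ρ₁ : GaloisRepAdic (DualNumber (ResidueField 𝒪)))
            (r₁ : GQ →* M2 (DualNumber (ResidueField 𝒪))),
            S53.HasMatrix ρ₁ r₁ → IsLift (S53.toMatRes ρbar b) r₁ →
            (∀ σ, (r₁ σ).det = TrivSqZeroExt.inl (S53.toMatRes ρbar b σ).det) → 𝒟p ρ₁ →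
            resLoc (ResidueField 𝒪) (ExtCitation.pPrime p)
              (coc (two_ne_zero_of_charP (k := ResidueField 𝒪) p hp2) r₁) ∈ L) →
        ∃ γ : MvPowerSeries (Fin r) 𝒪 →ₐ[𝒪] DQ.R, Function.Surjective γ := by
    intro n
    obtain ⟨qv', hinj, hq, hkill⟩ := hr n (S ∪ S₁.image (fun q : Nat.Primes => (q : ℕ)))
    have hnotS : ∀ i, qv' i ∉ toP Smin ∪ S₁ := fun i hi => by
      rcases Finset.mem_union.1 hi with hi | hi
      · exact (hq i).1 (Finset.mem_union_left _ (hSmin (mem_toP.1 hi)))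
      · exact (hq i).1 (Finset.mem_union_right _ (Finset.mem_image_of_mem _ hi))
    refine ⟨qv', fun i j hij => hinj (Subtype.ext hij), fun i => ⟨(qv' i).2, fun hi => (hq i).1 (Finset.mem_union_left _ hi), (hq i).2.1⟩,
      ?_, ?_⟩
    · intro i P hP φ hφ
      obtain ⟨φ₀, hφ₀, α, β, hαβ, hchar⟩ := (hq i).2.2
      exact ⟨α, β, hαβ, charpoly_frob_of ρbar b (qv' i) (hur (qv' i) (hnotS i)) φ₀ hφ₀ _ hchar
        P hP φ hφ⟩
    · intro 𝒟 𝒟p DQ hbc h𝒟 hLp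
      have hcard : (Finset.univ.image qv').card = r := by
        rw [Finset.card_image_of_injective _ hinj, Finset.card_univ, Fintype.card_fin]
      have hdisj : Disjoint (toP Smin ∪ S₁) (Finset.univ.image qv') := by
        rw [Finset.disjoint_left]
        intro q hq1 hq2
        obtain ⟨i, -, rfl⟩ := Finset.mem_image.1 hq2
        exact hnotS i hq1
      have hQ : ∀ q ∈ Finset.univ.image qv', p ∣ (q : ℕ) - 1 ∧ ∃ φ : GQ,
          (ExtCitation.primeLocalPlace q).IsFrobeniusAt φ (q : ℕ) ∧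
          ∃ α β : ResidueField 𝒪, α ≠ β ∧
            (S53.toMatRes ρbar b φ).charpoly = (X - C α) * (X - C β) := fun q hq' => by
        obtain ⟨i, -, rfl⟩ := Finset.mem_image.1 hq'
        exact ⟨(dvd_pow_self p (Nat.succ_ne_zero n)).trans (hq i).2.1, (hq i).2.2⟩
      have := surjective_of_conditions hp2 ρbar b (S53.toMatRes ρbar b) (fun σ => rfl) h
        (toP Smin ∪ S₁) (Finset.univ.image qv') hdisj hpS hur hQ hkill
        (hS₁ _ _ Finset.subset_union_right hdisj hpS hur hQ) 𝒟 𝒟p DQ hbc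
        (fun ρ₁ hρ₁ => by
          obtain ⟨h1, h2', h3, h4⟩ := h𝒟 ρ₁ hρ₁
          have hunr : ∀ q : Nat.Primes, q ∉ toP Smin → q ∉ Finset.univ.image qv' →
              ρ₁.IsUnramifiedAt (q : ℕ) := fun q hq1 hq2 => h3 q q.2 fun hmem => by
            rcases Finset.mem_union.1 hmem with hm | hm
            · exact hq1 (mem_toP.2 hm)
            · obtain ⟨i, -, hi⟩ := Finset.mem_image.1 hm
              exact hq2 (Finset.mem_image.2 ⟨i, Finset.mem_univ _, Subtype.ext hi⟩)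
          refine ⟨h1, h2', fun q hq' => hunr q
            (fun hm => hq' (Finset.mem_union_left _ (Finset.mem_union_left _ hm)))
            (fun hm => hq' (Finset.mem_union_right _ hm)), fun q hq' hqp => ?_⟩
          by_cases hqS : q ∈ toP Smin
          · exact Or.inr ⟨ram_of ρbar b Smin hmin q hqS hqp, h4 q (mem_toP.1 hqS) q.2 hqp⟩
          · exact Or.inl (hunr q hqS (fun hm => (Finset.disjoint_left.1 hdisj hq') hm)))
        hLp
      rwa [hcard] at this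
  refine ⟨⟨r, fun n => ?_⟩, ⟨r, fun n => ?_⟩⟩
  · obtain ⟨qv', h1, h2', h3, h4⟩ := key n
    refine ⟨fun i => (qv' i : ℕ), h1, h2', h3, fun DQ => ?_⟩
    refine h4 _ (fun ρ₁ => ρ₁.IsStrictOrdinaryAt p) DQ ?_ ?_
      (exists_ord_condition hp2 _ (S53.toMatRes ρbar b) h.cont h.det)
    · intro φ hφ _
      obtain ⟨⟨a1, a2, a3⟩, a4⟩ := DQ.isOfType
      exact ⟨⟨detIsCyclotomic_baseChange _ hφ a1, isStrictOrdinaryAt_baseChange _ hφ a2,
        fun q hq hqS => isUnramifiedAt_baseChange _ hφ (a3 q hq hqS)⟩,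
        fun q hq hq' hqp => isUnipotentOnInertiaAt_baseChange _ hφ (a4 q hq hq' hqp)⟩
    · rintro ρ₁ ⟨⟨a1, a2, a3⟩, a4⟩
      exact ⟨a1, a2, a3, a4⟩
  · obtain ⟨qv', h1, h2', h3, h4⟩ := key n
    refine ⟨fun i => (qv' i : ℕ), h1, h2', h3, fun DQ => ?_⟩
    refine h4 _ (fun ρ₁ => ρ₁.IsFlatAt p) DQ ?_ ?_
      (exists_flat_condition hp2 _ (S53.toMatRes ρbar b) h.cont h.det h.split)
    · intro φ hφ hsurj
      obtain ⟨⟨a1, a2, a3⟩, a4⟩ := DQ.isOfType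
      exact ⟨⟨detIsCyclotomic_baseChange _ hφ a1, isFlatAt_baseChange_of_surjective _ hφ hsurj a2,
        fun q hq hqS => isUnramifiedAt_baseChange _ hφ (a3 q hq hqS)⟩,
        fun q hq hq' hqp => isUnipotentOnInertiaAt_baseChange _ hφ (a4 q hq hq' hqp)⟩
    · rintro ρ₁ ⟨⟨a1, a2, a3⟩, a4⟩
      exact ⟨a1, a2, a3, a4⟩

end Fermat.Agent.S56
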