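import Fermat.Statements.S57
import Fermat.Agent.S57.RegSeq
import Fermat.Agent.S57.Transfer
import Fermat.Agent.S57.Descent

set_option autoImplicit false
open Algebra Algebra.PatchingLevel

namespace Fermat.Agent.S57

theorem result
    {𝒪 : Type} [CommRing 𝒪] [IsDomain 𝒪] [IsDiscreteValuationRing 𝒪]
    {r : ℕ} {R : Type} [CommRing R] [Algebra 𝒪 R]
    {M : Type} [AddCommGroup M] [Module R M] [Nontrivial M]
    (L : Algebra.PatchingLevel 𝒪 r R M ⊥) :
    Module.Free R M ∧ Module.annihilator R M = ⊥ ∧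
      RingHom.ker L.ψ = Ideal.span (Set.range fun i : Fin r => L.φ (MvPowerSeries.X i)) := by
  obtain ⟨ϖ, hϖ⟩ := IsDiscreteValuationRing.exists_irreducible 𝒪
  have hR : Nontrivial R := Module.nontrivial R M
  have hkerne : RingHom.ker (L.ψ : MvPowerSeries (Fin r) 𝒪 →+* R) ≠ ⊤ :=
    RingHom.ker_ne_top _
  have hloc : ∀ s ∈ regSeq r ϖ,
      (L.φ : MvPowerSeries (Fin r) 𝒪 →+* MvPowerSeries (Fin r) 𝒪) s ∈
        IsLocalRing.maximalIdeal (MvPowerSeries (Fin r) 𝒪) := by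
    intro s hs
    rw [regSeq, List.mem_append, List.mem_map, List.mem_singleton] at hs
    rcases hs with ⟨i, _, rfl⟩ | rfl
    · apply IsLocalRing.le_maximalIdeal hkerne
      rw [RingHom.mem_ker]
      exact L.ψ_φ_X i
    · have h1 : (L.φ : MvPowerSeries (Fin r) 𝒪 →+* MvPowerSeries (Fin r) 𝒪)
          (MvPowerSeries.C ϖ) = MvPowerSeries.C ϖ := L.φ.commutes ϖ
      rw [h1, ← ofList_regSeq r hϖ, regSeq, Ideal.ofList_append, Ideal.ofList_singleton]
      exact Ideal.mem_sup_right (Ideal.mem_span_singleton_self _)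
  have hfree : Module.Free (MvPowerSeries (Fin r) 𝒪) L.N :=
    free_of_free_via (L.φ : MvPowerSeries (Fin r) 𝒪 →+* MvPowerSeries (Fin r) 𝒪) L.b
      (regSeq r ϖ) (isWeaklyRegular_regSeq r hϖ.ne_zero) (ofList_regSeq r hϖ)
      (regSeq r ϖ) (isRegular_regSeq r hϖ) (ofList_regSeq r hϖ) rfl hloc
      L.b_span (fun c hc i => by simpa using (L.b_rel c).mp hc i)
  refine descent (L.ψ : MvPowerSeries (Fin r) 𝒪 →+* R) L.ψ_surjective
    (Ideal.span (Set.range fun i : Fin r => L.φ (MvPowerSeries.X i))) ?_ L.π L.π_smul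
    L.π_surjective L.ker_π
  rw [Ideal.span_le]
  rintro _ ⟨i, rfl⟩
  exact L.ψ_φ_X i

end Fermat.Agent.S57
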