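-- Statement S59 : modularity lifting at conductor level for p = 3, 5 (Project ML).
import Fermat.Statements.S59
import Fermat.Agent.ML.Top.Steps
import Fermat.Agent.ML.At2.N2.Raise2
import Fermat.Agent.ML.Lift.Soft.Main
import Fermat.Agent.ML.Lift.Inst.SoftMidMain
import Fermat.Agent.ML.Hard.MidAsm
import Fermat.Agent.ML.AtP.StepP.Done

set_option autoImplicit false
set_option autoImplicit false
open scoped WeierstrassCurve.Affine
open WeierstrassCurve

namespace Fermat.Agent.S59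

theorem result (p : ℕ) (hp : p = 3 ∨ p = 5)
    (W : WeierstrassCurve ℤ) (hΔ : W.Δ ≠ 0) (hW : W.IsSemistableModel) (hirr : W.ModRepIsIrreducible p)
    (M₀ : ℕ) [NeZero M₀] (hres₀ : W.IsResiduallyModularOfLevel p M₀)
    (hM₀ : ¬ p ^ 2 ∣ M₀)
    (hM₀3 : ∀ q : ℕ, q.Prime → q ≠ p → ¬ q ^ 3 ∣ M₀) :
    Mlc1IsModularModelOfExactConductorLevel W :=
  Fermat.Agent.ML.result_of_steps
    (Fermat.Agent.ML.At2.stepTwoStmt_lvl Fermat.Agent.ML.lowerStmt)
    (Fermat.Agent.ML.Lift.stepSoftStmt_of_mid Fermat.Agent.ML.lowerStmt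
      Fermat.Agent.ML.Lift.softMidStmt)
    (Fermat.Agent.ML.stepHardStmt Fermat.Agent.ML.lowerStmt)
    Fermat.Agent.ML.StepP.stepPStmt
    p hp W hΔ hW hirr M₀ hres₀ hM₀ hM₀3

end Fermat.Agent.S59
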